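import Fermat.Agent.Root.SummaryGammaPeriods

/-!
# The hexagonal lattice

The lattice with invariants `(0, 4)` is `ω (ℤ ρ + ℤ)`, `ω` its least real period: the only other
lattice stable under `ρ` with the same real points would have a purely imaginary period
`i ω / √3`, shorter than the real period of the lattice with invariants `(0, -4)`.
-/

set_option autoImplicit false
set_option linter.style.haveILetI false

noncomputable section

open MeasureTheory Set
open FA.ModField (rho rho_cube rho_ne_zero)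
open FA.Mazur.Wp (latPair mem_latPair)
open scoped Real ComplexConjugate

namespace FA.ModularValues

/-- The complete integral of `y² = x³ - 1` is at most that of `y² = x³ + 1`. -/
theorem integral_sub_one_le_add_one
    (h1 : ∫ x in Ioi (1 : ℝ), (√(4 * x ^ 3 - 4))⁻¹ ≠ 0)
    (h2 : ∫ x in Ioi (-1 : ℝ), (√(4 * x ^ 3 + 4))⁻¹ ≠ 0) :
    ∫ x in Ioi (1 : ℝ), (√(4 * x ^ 3 - 4))⁻¹ ≤ ∫ x in Ioi (-1 : ℝ), (√(4 * x ^ 3 + 4))⁻¹ := by
  have e : ∫ x in Ioi (1 : ℝ), (√(4 * (x - 2) ^ 3 + 4))⁻¹ =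
      ∫ x in Ioi (-1 : ℝ), (√(4 * x ^ 3 + 4))⁻¹ := by
    have h := (measurePreserving_sub_right volume (2 : ℝ)).setIntegral_preimage_emb
      (MeasurableEquiv.subRight (2 : ℝ)).measurableEmbedding
      (fun x : ℝ => (√(4 * x ^ 3 + 4))⁻¹) (Ioi (-1))
    rw [preimage_sub_const_Ioi] at h
    norm_num at h
    exact h
  rw [← e] at h2 ⊢
  refine setIntegral_mono_on (Integrable.of_integral_ne_zero h1)
    (Integrable.of_integral_ne_zero h2) measurableSet_Ioi fun x hx => ?_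
  have hx1 : (1 : ℝ) < x := hx
  have hfac : 4 * (x - 2) ^ 3 + 4 = 4 * ((x - 1) * (x ^ 2 - 5 * x + 7)) := by ring
  refine inv_anti₀ (Real.sqrt_pos.mpr ?_) (Real.sqrt_le_sqrt ?_)
  · rw [hfac]
    have : 0 < x ^ 2 - 5 * x + 7 := by nlinarith [sq_nonneg (x - 5 / 2)]
    positivity [sub_pos.mpr hx1]
  · nlinarith [mul_nonneg (sub_nonneg.mpr hx1.le) (sub_nonneg.mpr hx1.le)]

variable (L : PeriodPair) (h₂ : L.g₂ = 0) (h₃ : L.g₃ = 4)

include h₂ in
theorem rho_mul_mem {z : ℂ} (hz : z ∈ L.lattice) : (rho : ℂ) * z ∈ L.lattice := by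
  have h : (FA.JInj.scalePair L rho rho_ne_zero).lattice = L.lattice :=
    (FA.JInj.lattice_eq_iff _ _).mpr
      ⟨by rw [FA.JInj.g₂_scalePair, h₂, mul_zero],
        by rw [FA.JInj.g₃_scalePair, show (rho : ℂ) ^ 6 = ((rho : ℂ) ^ 3) ^ 2 by ring, rho_cube,
          one_pow, inv_one, one_mul]⟩
  rw [← h, FA.JInj.mem_scalePair]
  exact ⟨z, hz, rfl⟩

variable {ω : ℝ} (hω : 0 < ω) (hper : ∀ s : ℝ, (s : ℂ) ∈ L.lattice ↔ ∃ m : ℤ, s = m * ω)

include h₂ h₃ hω hper in
/-- The lattice has no period `i ω / √3`. -/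
theorem short_period_notMem : Complex.I * ((ω / √3 : ℝ) : ℂ) ∉ L.lattice := by
  intro hmem
  obtain ⟨ω', hω', hper', he'⟩ := FA.Summary.realPeriod_integral
    (FA.JInj.scalePair L Complex.I Complex.I_ne_zero) (a := 0) (b := -4) (e := -1)
    (by rw [FA.JInj.g₂_scalePair, h₂, mul_zero, Complex.ofReal_zero])
    (by rw [FA.JInj.g₃_scalePair, h₃, show Complex.I ^ 6 = (Complex.I ^ 2) ^ 3 by ring,
      Complex.I_sq]; norm_num)
    (by ring) fun t ht => by nlinarith [sq_nonneg (2 * t - 1)]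
  have he : ω / 2 = ∫ x in Ioi (1 : ℝ), (√(4 * x ^ 3 - 0 * x - 4))⁻¹ :=
    FA.RealPoints.half_period_eq L (a := 0) (b := 4) (by rw [h₂, Complex.ofReal_zero])
      (by rw [h₃, Complex.ofReal_ofNat]) hω hper (by norm_num)
      fun t ht => by nlinarith [one_lt_pow₀ ht three_ne_zero]
  simp only [zero_mul, sub_zero, sub_neg_eq_add] at he he'
  have hle : ω ≤ ω' := by
    have := integral_sub_one_le_add_one (by linarith) (by linarith)
    linarith
  obtain ⟨m, hm⟩ := (hper' (-(ω / √3))).mp (FA.JInj.mem_scalePair.mpr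
    ⟨_, hmem, by rw [← mul_assoc, Complex.I_mul_I]; push_cast; ring⟩)
  have h3 : 1 < √(3 : ℝ) := Real.lt_sqrt_of_sq_lt (by norm_num)
  have hlt : ω / √3 < ω := div_lt_self hω h3
  have hpos : 0 < ω / √3 := by positivity
  rcases lt_trichotomy m 0 with hm0 | rfl | hm0
  · have : (m : ℝ) ≤ -1 := by exact_mod_cast (show m ≤ -1 by omega)
    nlinarith
  · rw [Int.cast_zero, zero_mul] at hm; linarith
  · have : (1 : ℝ) ≤ m := by exact_mod_cast hm0
    nlinarith

include h₂ h₃ hω hper in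
/-- **The lattice is `ω (ℤ ρ + ℤ)`.** -/
theorem mem_lattice_hexagonal (z : ℂ) :
    z ∈ L.lattice ↔ ∃ p : ℤ × ℤ, z = (ω : ℂ) * ((p.1 : ℂ) * rho + p.2) := by
  have hωl : (ω : ℂ) ∈ L.lattice := (hper ω).mpr ⟨1, by simp⟩
  have hgen : ∀ m n : ℤ, (ω : ℂ) * ((m : ℂ) * rho + n) ∈ L.lattice := fun m n => by
    have h1 := L.lattice.smul_mem m (rho_mul_mem L h₂ hωl)
    have h2 := L.lattice.smul_mem n hωl
    rw [zsmul_eq_mul] at h1 h2
    have := add_mem h1 h2
    rwa [show (m : ℂ) * ((rho : ℂ) * ω) + (n : ℂ) * ω =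
      (ω : ℂ) * ((m : ℂ) * rho + n) by ring] at this
  refine ⟨fun hz => ?_, fun ⟨p, hp⟩ => hp ▸ hgen p.1 p.2⟩
  have hre : ∀ {w : ℂ}, w ∈ L.lattice → ∃ j : ℤ, 2 * w.re = j * ω := fun {w} hw => by
    have h' := add_mem hw ((FA.RealPoints.conj_mem L (a := 0) (b := 4)
      (by rw [h₂, Complex.ofReal_zero]) (by rw [h₃, Complex.ofReal_ofNat])).mpr hw)
    rw [Complex.add_conj] at h'
    exact (hper _).mp h'
  obtain ⟨j, hj⟩ := hre hz
  obtain ⟨k, hk⟩ := hre (rho_mul_mem L h₂ hz)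
  have hρre : rho.re = -1 / 2 := rfl
  have hρim : rho.im = √3 / 2 := rfl
  rw [Complex.mul_re, UpperHalfPlane.coe_re, UpperHalfPlane.coe_im, hρre, hρim] at hk
  have h3 : √(3 : ℝ) ^ 2 = 3 := Real.sq_sqrt (by norm_num)
  have h30 : 0 < √(3 : ℝ) := Real.sqrt_pos.mpr three_pos
  set w : ℂ := Complex.I * ((ω / √3 : ℝ) : ℂ) with hw
  have hwre : w.re = 0 := by simp [hw]
  have hwim : √3 * w.im = ω := by simp [hw]; field_simp
  -- `z = (j - k) w - j ρ ω`
  have ez : z = ((j - k : ℤ) : ℂ) * w - (j : ℂ) * ((rho : ℂ) * ω) := by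
    apply Complex.ext
    · simp [hwre, hρre, hρim]
      linarith
    · simp [hwre, hρre, hρim]
      refine mul_left_cancel₀ h30.ne' ?_
      linear_combination (-1 / 2 : ℝ) * hj - hk - ((j : ℝ) - k) * hwim + (j * ω / 2) * h3
  have h3w : 3 * w = (ω : ℂ) * (2 * rho + 1) := by
    apply Complex.ext
    · simp [hwre, hρre]; norm_num
    · simp [hwre, hρre, hρim]
      refine mul_left_cancel₀ h30.ne' ?_
      linear_combination 3 * hwim - ω * h3
  have hmul : ((j - k : ℤ) : ℂ) * w ∈ L.lattice := by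
    have := add_mem hz (hgen j 0)
    rw [ez] at this
    push_cast at this ⊢
    rw [show ((j : ℂ) - k) * w = ((j : ℂ) - k) * w - (j : ℂ) * ((rho : ℂ) * ω) +
      (ω : ℂ) * ((j : ℂ) * rho + 0) by ring]
    exact this
  have h3mem : 3 * w ∈ L.lattice := by
    rw [h3w]; simpa using hgen 2 1
  obtain ⟨t, ht | ht | ht⟩ : ∃ t, j - k = 3 * t ∨ j - k = 3 * t + 1 ∨ j - k = 3 * t + 2 :=
    ⟨(j - k) / 3, by omega⟩
  · refine ⟨(2 * t - j, t), ?_⟩
    rw [ez, ht]
    push_cast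
    linear_combination (t : ℂ) * h3w
  · refine absurd ?_ (short_period_notMem L h₂ h₃ hω hper)
    have := sub_mem hmul (L.lattice.smul_mem t h3mem)
    rw [ht, zsmul_eq_mul] at this
    push_cast at this
    rw [← hw]
    convert this using 1
    ring
  · refine absurd ?_ (short_period_notMem L h₂ h₃ hω hper)
    have := sub_mem (L.lattice.smul_mem (t + 1) h3mem) hmul
    rw [ht, zsmul_eq_mul] at this
    push_cast at this
    rw [← hw]
    convert this using 1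
    ring

include h₂ h₃ hω hper in
/-- The invariant of `ℤ ρ + ℤ`. -/
theorem g₃_latPair_rho : (latPair rho).g₃ = 4 * (ω : ℂ) ^ 6 := by
  have hωc : (ω : ℂ) ≠ 0 := Complex.ofReal_ne_zero.mpr hω.ne'
  have hl : (FA.JInj.scalePair (latPair rho) (ω : ℂ) hωc).lattice = L.lattice := by
    ext z
    rw [mem_lattice_hexagonal L h₂ h₃ hω hper, FA.JInj.mem_scalePair]
    constructor
    · rintro ⟨y, hy, rfl⟩
      obtain ⟨m, n, rfl⟩ := mem_latPair.mp hy
      exact ⟨(m, n), rfl⟩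
    · rintro ⟨p, rfl⟩
      exact ⟨_, mem_latPair.mpr ⟨p.1, p.2, rfl⟩, rfl⟩
  have h := ((FA.JInj.lattice_eq_iff _ _).mp hl).2
  rw [FA.JInj.g₃_scalePair, h₃, inv_mul_eq_iff_eq_mul₀ (pow_ne_zero 6 hωc)] at h
  rw [h]
  ring

end FA.ModularValues

end
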