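import Fermat.Agent.ModularValues.EtaReal
import Fermat.Agent.Root.SummaryGammaPeriods
import Mathlib.NumberTheory.ModularForms.EisensteinSeries.E2.Transform

/-!
# Values at `τ = i`

`E₄(i)` is Hurwitz's sum, `η(i) ^ 24 = E₄(i) ^ 3 / 1728`, `θ(i) = √2 η(i)`; `E_k(i) = 0` for
`k ≡ 2 (mod 4)`, `k ≥ 6`, and `E₂(i) = 3 / π`.
-/

set_option autoImplicit false
set_option linter.style.haveILetI false

noncomputable section

open Complex (I)
open ModularForm
open FA.Mazur.Wp (latPair g₂_latPair)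
open UpperHalfPlane (modular_S_smul coe_I)
open scoped Real MatrixGroups ModularForm

namespace FA.ModularValues

local notation "i₀" => UpperHalfPlane.I

theorem g₂_latPair_I :
    (latPair i₀).g₂ = 60 * ((Real.Gamma (1 / 4) ^ 8 / (960 * π ^ 2) : ℝ) : ℂ) := by
  rw [PeriodPair.g₂, ← FA.Summary.hurwitz_gaussian_G4, PeriodPair.G,
    ← (latPair i₀).latticeEquivProd.symm.toEquiv.tsum_eq, ← (Equiv.prodComm ℤ ℤ).tsum_eq]
  congr 1
  refine tsum_congr fun p => ?_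
  rw [LinearEquiv.coe_toEquiv, PeriodPair.latticeEquiv_symm_apply]
  simp [latPair, coe_I]
  ring_nf

theorem E4_I : E₄ i₀ = ((3 * Real.Gamma (1 / 4) ^ 8 / (64 * π ^ 6) : ℝ) : ℂ) := by
  have h := g₂_latPair_I
  rw [g₂_latPair, FA.Mazur.Wp.tpi, mul_pow, mul_pow, Complex.I_pow_four] at h
  have hπ : (π : ℂ) ≠ 0 := Complex.ofReal_ne_zero.mpr Real.pi_ne_zero
  push_cast at h ⊢
  field_simp at h ⊢
  linear_combination (1 / 240 : ℂ) * h

theorem discriminant_I :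
    ModularForm.discriminant i₀ =
      ((Real.Gamma (1 / 4) ^ 24 / (2 ^ 24 * π ^ 18) : ℝ) : ℂ) := by
  rw [discriminant_eq_E₄_cube_sub_E₆_sq, FA.ModField.E6_I, E4_I]
  have hπ : (π : ℂ) ≠ 0 := Complex.ofReal_ne_zero.mpr Real.pi_ne_zero
  push_cast
  field_simp
  ring

theorem eta_I : η I = ((Real.Gamma (1 / 4) / (2 * π ^ (3 / 4 : ℝ)) : ℝ) : ℂ) := by
  have hq : |Real.exp (-(2 * π))| < 1 := by
    rw [abs_of_pos (Real.exp_pos _), Real.exp_lt_one_iff]; linarith [Real.pi_pos]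
  have he : η I = ((Real.exp (-(π / 12)) * realEtaProd (Real.exp (-(2 * π))) : ℝ) : ℂ) := by
    rw [eta_of_real_q (q := Real.exp (-(2 * π))) ?_ hq]
    · push_cast
      congr 2
      linear_combination ((π : ℂ) / 12) * Complex.I_mul_I
    · push_cast
      congr 1
      linear_combination (2 * (π : ℂ)) * Complex.I_mul_I
  rw [he]
  congr 1
  have hg := Real.Gamma_pos_of_pos (show (0 : ℝ) < 1 / 4 by norm_num)
  refine (pow_left_inj₀ (mul_nonneg (Real.exp_pos _).le (realEtaProd_nonneg hq))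
    (by positivity) (show (24 : ℕ) ≠ 0 by norm_num)).mp ?_
  have h : η I ^ 24 = ((Real.Gamma (1 / 4) ^ 24 / (2 ^ 24 * π ^ 18) : ℝ) : ℂ) := discriminant_I
  rw [he, ← Complex.ofReal_pow, Complex.ofReal_inj] at h
  rw [h, div_pow, mul_pow, ← Real.rpow_natCast (π ^ (3 / 4 : ℝ)) 24, ← Real.rpow_mul Real.pi_pos.le]
  norm_num

theorem jacobiTheta_eq_altA (τ : ℂ) :
    jacobiTheta τ = FA.CM.qSum FA.CM.altA FA.CM.sqE (τ + 1) := by
  rw [FA.CM.qSum_add_one (b := fun _ => 1) fun n => ?_]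
  · refine tsum_congr fun n => ?_
    rw [FA.CM.sqE, one_mul]
    push_cast
    ring_nf
  · rw [FA.CM.altA, FA.CM.sqE, ← zpow_add₀ (by norm_num)]
    exact (show Even (n + n ^ 2) by
      rw [sq, ← mul_one_add, add_comm]; exact Int.even_mul_succ_self n).neg_one_zpow

theorem jacobiTheta_I :
    jacobiTheta I = ((π ^ (1 / 4 : ℝ) / Real.Gamma (3 / 4) : ℝ) : ℂ) := by
  have h := FA.CM.qSum_four_eq (τ := I + 1) (by simp)
  rw [← jacobiTheta_eq_altA, FA.ModField.EtaQ.eta_add_one] at h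
  have h1 : η ((((1 / 2 : ℝ) : ℂ)) * (I + 1)) ^ 2 = -I * (I - 1) * η (I - 1) ^ 2 := by
    rw [← FA.CM.eta_S_sq (τ := I - 1) (by simp)]
    congr 2
    have : I - 1 ≠ 0 := fun h0 => by simpa using congrArg Complex.im h0
    field_simp
    push_cast
    linear_combination (1 / 2 : ℂ) * Complex.I_mul_I
  have h2 : η I = Complex.exp (2 * π * I / 24) * η (I - 1) := by
    rw [← FA.ModField.EtaQ.eta_add_one, sub_add_cancel]
  have hn : η I ≠ 0 := eta_ne_zero (by simp [UpperHalfPlane.upperHalfPlaneSet])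
  set u := Complex.exp (2 * π * I / 24) with hu
  have hu0 : u ≠ 0 := Complex.exp_ne_zero _
  have hu3 : u ^ 3 * ((√2 : ℝ) : ℂ) = 1 + I := by
    rw [hu, ← Complex.exp_nat_mul,
      show ((3 : ℕ) : ℂ) * (2 * π * I / 24) = ((π / 4 : ℝ) : ℂ) * I by push_cast; ring,
      Complex.exp_mul_I, ← Complex.ofReal_cos, ← Complex.ofReal_sin, Real.cos_pi_div_four,
      Real.sin_pi_div_four]
    have h22 : ((√2 : ℝ) : ℂ) ^ 2 = 2 := by
      rw [← Complex.ofReal_pow, Real.sq_sqrt zero_le_two, Complex.ofReal_ofNat]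
    push_cast
    linear_combination ((1 + I) / 2) * h22
  have key : jacobiTheta I = ((√2 : ℝ) : ℂ) * η I := by
    rw [h1] at h
    refine mul_right_cancel₀ (mul_ne_zero (pow_ne_zero 3 hu0) hn) ?_
    have h' : jacobiTheta I * (u * η I) * u ^ 2 = -I * (I - 1) * (u * η (I - 1)) ^ 2 := by
      rw [h]; ring
    rw [← h2] at h'
    linear_combination h' - η I ^ 2 * hu3 - η I ^ 2 * Complex.I_mul_I
  rw [key, eta_I, ← Complex.ofReal_mul]
  congr 1
  have hr := Real.Gamma_mul_Gamma_one_sub (1 / 4)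
  rw [show π * (1 / 4) = π / 4 by ring, Real.sin_pi_div_four,
    show (1 : ℝ) - 1 / 4 = 3 / 4 by norm_num] at hr
  have hg := Real.Gamma_pos_of_pos (show (0 : ℝ) < 1 / 4 by norm_num)
  have hg' := Real.Gamma_pos_of_pos (show (0 : ℝ) < 3 / 4 by norm_num)
  have hp : π ^ (1 / 4 : ℝ) * π ^ (3 / 4 : ℝ) = π := by
    rw [← Real.rpow_add Real.pi_pos]; norm_num
  have hs : √(2 : ℝ) ^ 2 = 2 := Real.sq_sqrt zero_le_two
  field_simp at hr ⊢
  linear_combination hr - 2 * hp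

/-- `E_k(i) = 0` for `k ≡ 2 (mod 4)`. -/
theorem E_I_eq_zero {k : ℕ} (hk : 3 ≤ k) (hk4 : k % 4 = 2) : (ModularForm.E hk) i₀ = 0 := by
  obtain ⟨m, rfl⟩ : ∃ m, k = 4 * m + 2 := ⟨k / 4, by omega⟩
  have h := FA.Mazur.Wp.slash_apply_of_levelOne (ModularForm.E hk) ModularGroup.S i₀
  rw [FA.ModField.S_smul_I, FA.Mazur.Wp.den] at h
  simp only [ModularGroup.coe_S, coe_I, zpow_natCast] at h
  norm_num at h
  rw [pow_add, pow_mul, Complex.I_pow_four, one_pow, one_mul, Complex.I_sq] at h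
  linear_combination h / 2

theorem E2_I : EisensteinSeries.E2 i₀ = ((3 / π : ℝ) : ℂ) := by
  have h := congrFun (EisensteinSeries.E2_slash_action ModularGroup.S) i₀
  rw [ModularForm.SL_slash_apply, FA.ModField.S_smul_I] at h
  simp only [Pi.sub_apply, Pi.smul_apply, EisensteinSeries.D2_S, coe_I, riemannZeta_two,
    smul_eq_mul] at h
  have hd : UpperHalfPlane.denom (Matrix.SpecialLinearGroup.toGL
      ((Matrix.SpecialLinearGroup.map (Int.castRingHom ℝ)) ModularGroup.S)) I = I := by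
    simp [UpperHalfPlane.denom, ModularGroup.coe_S]
  rw [hd, zpow_neg, zpow_ofNat, Complex.I_sq] at h
  have hπ : (π : ℂ) ≠ 0 := Complex.ofReal_ne_zero.mpr Real.pi_ne_zero
  push_cast
  field_simp at h ⊢
  linear_combination (-1 / 2 : ℂ) * h

theorem cexp_two_pi_I_I : Complex.exp (2 * π * I * I) = ((Real.exp (-(2 * π)) : ℝ) : ℂ) := by
  rw [Complex.ofReal_exp]
  congr 1
  push_cast
  linear_combination (2 * (π : ℂ)) * Complex.I_mul_I

/-- `n ^ j / (e^(2 π n) - 1)` summed is the sum of `σ_j(n) e^(-2 π n)`. -/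
theorem tsum_sigma_I (j : ℕ) :
    ∑' n : ℕ+, (ArithmeticFunction.sigma j n : ℂ) * Complex.exp (2 * π * I * I) ^ (n : ℕ) =
      ((∑' n : ℕ+, (n : ℝ) ^ j / (Real.exp (2 * π * n) - 1) : ℝ) : ℂ) := by
  have hlt : Real.exp (-(2 * π)) < 1 := Real.exp_lt_one_iff.mpr (by linarith [Real.pi_pos])
  rw [cexp_two_pi_I_I, ← tsum_pow_div_one_sub_eq_tsum_sigma
    (by rw [Complex.norm_real, Real.norm_of_nonneg (Real.exp_pos _).le]; exact hlt) j,
    Complex.ofReal_tsum]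
  refine tsum_congr fun n => ?_
  rw [← Complex.ofReal_pow, ← Real.exp_nat_mul, mul_neg, Real.exp_neg,
    show (n : ℕ) * (2 * π) = 2 * π * n by ring]
  have h0 : Real.exp (2 * π * n) ≠ 0 := (Real.exp_pos _).ne'
  rw [show ((n : ℕ) : ℂ) = ((n : ℕ) : ℝ) by simp]
  norm_cast
  field_simp

theorem E_I_eq_tsum {k : ℕ} (hk : 3 ≤ k) (hk2 : Even k) :
    (ModularForm.E hk) i₀ = ((1 - 2 * k / (bernoulli k : ℝ) *
      ∑' n : ℕ+, (n : ℝ) ^ (k - 1) / (Real.exp (2 * π * n) - 1) : ℝ) : ℂ) := by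
  rw [EisensteinSeries.q_expansion_bernoulli hk hk2]
  simp only [zpow_natCast, coe_I]
  rw [tsum_sigma_I]
  push_cast
  rfl

theorem E2_I_eq_tsum :
    EisensteinSeries.E2 i₀ =
      ((1 - 24 * ∑' n : ℕ+, (n : ℝ) / (Real.exp (2 * π * n) - 1) : ℝ) : ℂ) := by
  rw [EisensteinSeries.E2_eq_tsum_cexp]
  simp only [coe_I]
  rw [tsum_sigma_I]
  simp

end FA.ModularValues

end
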