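import Fermat.Agent.ModularValues.EtaReal
import Fermat.Agent.ModularValues.Hexagonal
import Mathlib.NumberTheory.ModularForms.EisensteinSeries.E2.Transform

/-!
# Values at `τ = ρ`

`E₆(ρ)` is the `g₃` of the hexagonal lattice, `η(ρ) ^ 24 = - E₆(ρ) ^ 2 / 1728`,
`E₂(ρ) = 2 √3 / π`.
-/

set_option autoImplicit false
set_option linter.style.haveILetI false

noncomputable section

open Complex (I)
open ModularForm
open FA.ModField (rho rho_sq rho_cube rho_ne_zero)
open scoped Real MatrixGroups ModularForm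

namespace FA.ModularValues

theorem E6_rho :
    E₆ rho = ((27 * Real.Gamma (1 / 3) ^ 18 / (512 * π ^ 12) : ℝ) : ℂ) := by
  obtain ⟨L, h₂, h₃⟩ := FA.JInj.exists_g₂_g₃ (a := 0) (b := 4) (by norm_num)
  obtain ⟨ω, hω, hper, hval⟩ := FA.Summary.mordellCurve_realPeriod L h₂ h₃
  have h := g₃_latPair_rho L h₂ h₃ hω hper
  rw [FA.Mazur.Wp.g₃_latPair, FA.Mazur.Wp.tpi, mul_pow, mul_pow,
    show (I : ℂ) ^ 6 = (I ^ 2) ^ 3 by ring, Complex.I_sq] at h
  have h6 : ω ^ 6 = Real.Gamma (1 / 3) ^ 18 / (256 * π ^ 6) := by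
    rw [hval, div_pow, mul_pow, ← pow_mul, ← Real.rpow_natCast ((2 : ℝ) ^ (4 / 3 : ℝ)) 6,
      ← Real.rpow_mul zero_le_two]
    norm_num
  rw [← Complex.ofReal_pow ω, h6] at h
  have hπ : (π : ℂ) ≠ 0 := Complex.ofReal_ne_zero.mpr Real.pi_ne_zero
  push_cast at h ⊢
  field_simp at h ⊢
  linear_combination (1 / 32 : ℂ) * h

theorem discriminant_rho :
    ModularForm.discriminant rho =
      ((-(27 * Real.Gamma (1 / 3) ^ 36 / (2 ^ 24 * π ^ 24)) : ℝ) : ℂ) := by
  rw [discriminant_eq_E₄_cube_sub_E₆_sq, FA.ModField.E4_rho, E6_rho]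
  have hπ : (π : ℂ) ≠ 0 := Complex.ofReal_ne_zero.mpr Real.pi_ne_zero
  push_cast
  field_simp
  ring

theorem rho_eq : (rho : ℂ) = ((-1 / 2 : ℝ) : ℂ) + ((√3 / 2 : ℝ) : ℂ) * I :=
  (Complex.re_add_im _).symm

theorem eta_rho :
    η rho = Complex.exp (-(π * I / 24)) *
      (((3 : ℝ) ^ (1 / 8 : ℝ) * Real.Gamma (1 / 3) ^ (3 / 2 : ℝ) / (2 * π) : ℝ) : ℂ) := by
  have hlt : Real.exp (-(π * √3)) < 1 :=
    Real.exp_lt_one_iff.mpr (neg_neg_of_pos (mul_pos Real.pi_pos (Real.sqrt_pos.mpr three_pos)))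
  have hq : |-Real.exp (-(π * √3))| < 1 := by
    rw [abs_neg, abs_of_pos (Real.exp_pos _)]; exact hlt
  have he : η rho = Complex.exp (-(π * I / 24)) *
      ((Real.exp (-(π * √3 / 24)) * realEtaProd (-Real.exp (-(π * √3))) : ℝ) : ℂ) := by
    rw [eta_of_real_q (q := -Real.exp (-(π * √3))) ?_ hq]
    · push_cast
      rw [← mul_assoc, ← Complex.exp_add]
      congr 2
      rw [rho_eq]
      push_cast
      linear_combination ((π : ℂ) * ((√3 : ℝ) : ℂ) / 24) * Complex.I_mul_I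
    · rw [show (2 : ℂ) * π * I * rho = ((-(π * √3) : ℝ) : ℂ) + -(π * I) by
        rw [rho_eq]; push_cast
        linear_combination ((π : ℂ) * ((√3 : ℝ) : ℂ)) * Complex.I_mul_I,
        Complex.exp_add, Complex.exp_neg (π * I), Complex.exp_pi_mul_I]
      push_cast
      ring
  rw [he]
  congr 2
  have hg := Real.Gamma_pos_of_pos (show (0 : ℝ) < 1 / 3 by norm_num)
  refine (pow_left_inj₀ (mul_nonneg (Real.exp_pos _).le (realEtaProd_nonneg hq))
    (by positivity) (show (24 : ℕ) ≠ 0 by norm_num)).mp ?_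
  have h : η rho ^ 24 =
      ((-(27 * Real.Gamma (1 / 3) ^ 36 / (2 ^ 24 * π ^ 24)) : ℝ) : ℂ) := discriminant_rho
  rw [he, mul_pow, ← Complex.exp_nat_mul,
    show ((24 : ℕ) : ℂ) * -(π * I / 24) = -(π * I) by push_cast; ring,
    Complex.exp_neg, Complex.exp_pi_mul_I, inv_neg, inv_one, neg_one_mul, ← Complex.ofReal_pow,
    ← Complex.ofReal_neg, Complex.ofReal_inj, neg_inj] at h
  rw [h, div_pow, mul_pow, mul_pow, ← Real.rpow_natCast ((3 : ℝ) ^ (1 / 8 : ℝ)) 24,
    ← Real.rpow_mul (by norm_num), ← Real.rpow_natCast (Real.Gamma (1 / 3) ^ (3 / 2 : ℝ)) 24,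
    ← Real.rpow_mul hg.le]
  norm_num

theorem E2_rho : EisensteinSeries.E2 rho = ((2 * √3 / π : ℝ) : ℂ) := by
  have h := congrFun (EisensteinSeries.E2_slash_action (ModularGroup.S * ModularGroup.T)) rho
  rw [ModularForm.SL_slash_apply, FA.ModField.ST_smul_rho] at h
  have hd : UpperHalfPlane.denom (Matrix.SpecialLinearGroup.toGL
      ((Matrix.SpecialLinearGroup.map (Int.castRingHom ℝ)) (ModularGroup.S * ModularGroup.T)))
      rho = (rho : ℂ) + 1 := by
    simp [UpperHalfPlane.denom, ModularGroup.coe_S, ModularGroup.coe_T, Matrix.mul_apply,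
      Fin.sum_univ_two]
  simp only [Pi.sub_apply, Pi.smul_apply, EisensteinSeries.D2, riemannZeta_two,
    smul_eq_mul] at h
  simp only [ModularGroup.coe_S, ModularGroup.coe_T, Matrix.SpecialLinearGroup.coe_mul,
    Matrix.mul_apply, Fin.sum_univ_two] at h
  erw [hd] at h
  norm_num at h
  rw [show (rho : ℂ) + 1 = -(rho : ℂ) ^ 2 by linear_combination rho_sq] at h
  have hπ : (π : ℂ) ≠ 0 := Complex.ofReal_ne_zero.mpr Real.pi_ne_zero
  have hr := rho_ne_zero
  have h2 : 2 * (rho : ℂ) + 1 = ((√3 : ℝ) : ℂ) * I := by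
    rw [rho_eq]; push_cast; ring
  push_cast
  field_simp at h ⊢
  have h1 : (1 : ℂ) - rho ≠ 0 := fun h0 => by
    have := congrArg Complex.re h0
    simp [rho] at this
    norm_num at this
  refine mul_left_cancel₀ h1 ?_
  linear_combination h + EisensteinSeries.E2 rho * π * rho * rho_cube -
    (2 * I * (1 - (rho : ℂ))) * h2 + 2 * I * rho_sq -
    2 * ((√3 : ℝ) : ℂ) * (1 - (rho : ℂ)) * Complex.I_sq

end FA.ModularValues

end
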