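import Fermat.Agent.CM.ThetaEta

/-!
# The Dedekind eta function where `q` is real

If `e^(2 π i τ)` is real then `η(τ)` is `e^(π i τ / 12)` times a non-negative real number.
-/

set_option autoImplicit false

noncomputable section

open Complex Filter Topology ModularForm
open scoped Real

namespace FA.ModularValues

/-- `∏ (1 - q^(n+1))` for real `q`. -/
def realEtaProd (q : ℝ) : ℝ := ∏' n : ℕ, (1 - q ^ (n + 1))

theorem realEtaProd_nonneg {q : ℝ} (hq : |q| < 1) : 0 ≤ realEtaProd q :=
  tprod_nonneg fun n => by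
    have h : |q ^ (n + 1)| < 1 := by
      rw [abs_pow]
      exact pow_lt_one₀ (abs_nonneg q) hq n.succ_ne_zero
    linarith [(abs_lt.mp h).2]

theorem multipliable_real {q : ℝ} (hq : |q| < 1) :
    Multipliable fun n : ℕ => 1 - q ^ (n + 1) := by
  simp only [sub_eq_add_neg]
  refine multipliable_one_add_of_summable (R := ℝ) ?_
  simp only [norm_neg, norm_pow, Real.norm_eq_abs]
  exact (summable_geometric_of_lt_one (abs_nonneg q) hq).comp_injective
    (add_left_injective 1)

/-- `η(τ)` when `e^(2 π i τ) = q` is real. -/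
theorem eta_of_real_q {τ : ℂ} {q : ℝ} (hτ : cexp (2 * π * I * τ) = q) (hq : |q| < 1) :
    η τ = cexp (π * I * τ / 12) * (realEtaProd q : ℂ) := by
  rw [FA.CM.eta_eq_exp_mul, FA.CM.etaP, realEtaProd,
    show ((∏' n : ℕ, (1 - q ^ (n + 1)) : ℝ) : ℂ) =
      Complex.ofRealHom (∏' n : ℕ, (1 - q ^ (n + 1))) from rfl,
    (multipliable_real hq).map_tprod Complex.ofRealHom Complex.continuous_ofReal]
  congr 1
  refine tprod_congr fun n => ?_
  rw [eta_q_eq_pow, hτ]
  simp

end FA.ModularValues

end
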